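import Fermat.Agent.S58.LocM.Abs.Node

/-!
# S58 / LOCM / M5 : `σ P = -P` is impossible near the node
-/

set_option autoImplicit false
set_option linter.unusedSectionVars false
set_option linter.unusedVariables false

namespace Fermat.Agent.S58.LocM

open Fermat.Agent.S05

variable {G : Type*} [AddCommGroup G] {K : Type*} [Field K]
  {Γ₀ : Type*} [LinearOrderedCommGroupWithZero Γ₀]
  {v : Valuation K Γ₀} {V : WeierstrassCurve K} {X Z : G → K} {α : Γ₀} {T : AddSubgroup G}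
  {σG : G →+ G} {σK : K →+* K}

/-- near (but not too near) the node the slope `Z / X` is integral. -/
lemma Z_node (hN : IsNodal v V α) {x z : K}
    (he : z ^ 2 + V.a₁ * x * z + V.a₃ * z = x ^ 3 + V.a₂ * x ^ 2 + V.a₄ * x + V.a₆)
    (hx : α < v x ^ 2) (hx1 : v x < 1) : v z ≤ v x := by
  by_contra hz
  push Not at hz
  have hsq : v x ^ 2 ≤ v x := by
    rw [sq]
    exact mul_le_of_le_one_right' hx1.le
  have h1 : v (x ^ 3 + V.a₂ * x ^ 2 + V.a₄ * x + V.a₆) ≤ v x ^ 2 := by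
    refine Valuation.map_add_le v (Valuation.map_add_le v (Valuation.map_add_le v ?_ ?_) ?_) ?_
    · rw [map_pow, pow_succ]
      exact mul_le_of_le_one_right' hx1.le
    · rw [map_mul, map_pow]
      exact mul_le_of_le_one_left' hN.a₂
    · rw [map_mul]
      exact le_trans (mul_le_of_le_one_right' hx1.le) (le_trans hN.a₄ hx.le)
    · exact le_trans hN.a₆ hx.le
  have h2 : v (V.a₁ * x) < v z := by
    rw [map_mul]
    exact lt_of_le_of_lt (mul_le_of_le_one_left' hN.a₁) hz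
  have h3 : v V.a₃ < v z := lt_of_le_of_lt hN.a₃ (lt_of_lt_of_le hx (le_trans hsq hz.le))
  have h4 : v (z + V.a₁ * x) = v z := Valuation.map_add_eq_of_lt_left v h2
  have h5 : v (z + V.a₁ * x + V.a₃) = v z := by
    rw [← h4]
    apply Valuation.map_add_eq_of_lt_left
    rw [h4]
    exact h3
  have h6 : z ^ 2 + V.a₁ * x * z + V.a₃ * z = z * (z + V.a₁ * x + V.a₃) := by ring
  rw [← he, h6, map_mul, h5, sq] at h1
  have h7 : v x * v x < v z * v z := mul_lt_mul'' hz hz zero_le zero_le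
  exact absurd h1 (not_le.mpr h7)

/-- near (but not too near) the node `ψ₂²` has the valuation of `X²`. -/
lemma v_psi_node (hN : IsNodal v V α) {x : K} (hx : α < v x ^ 2) (hx1 : v x < 1) :
    v (4 * x ^ 3 + V.b₂ * x ^ 2 + 2 * V.b₄ * x + V.b₆) = v x ^ 2 := by
  have hpos : 0 < v x ^ 2 := lt_of_le_of_lt zero_le hx
  have h4 : v (4 : K) ≤ 1 := le1_ofNat v 4
  have h2 : v (2 : K) ≤ 1 := le1_ofNat v 2
  have hB : v (V.b₂ * x ^ 2) = v x ^ 2 := by rw [map_mul, map_pow, hN.b₂, one_mul]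
  have hA : v (4 * x ^ 3) < v x ^ 2 := by
    rw [map_mul, map_pow]
    calc v 4 * v x ^ 3 ≤ v x ^ 3 := mul_le_of_le_one_left' h4
      _ = v x * v x ^ 2 := by rw [← pow_succ']
      _ < 1 * v x ^ 2 := mul_lt_mul_of_pos_right hx1 hpos
      _ = v x ^ 2 := one_mul _
  have hC : v (2 * V.b₄ * x) < v x ^ 2 := by
    rw [map_mul, map_mul]
    calc v 2 * v V.b₄ * v x ≤ v 2 * v V.b₄ := mul_le_of_le_one_right' hx1.le
      _ ≤ v V.b₄ := mul_le_of_le_one_left' h2
      _ ≤ α := hN.b₄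
      _ < v x ^ 2 := hx
  have hD : v V.b₆ < v x ^ 2 := lt_of_le_of_lt hN.b₆ hx
  have h1 : v (4 * x ^ 3 + V.b₂ * x ^ 2) = v x ^ 2 := by
    rw [← hB]
    apply Valuation.map_add_eq_of_lt_right
    rw [hB]
    exact hA
  have h3 : v (4 * x ^ 3 + V.b₂ * x ^ 2 + 2 * V.b₄ * x) = v x ^ 2 := by
    rw [← h1]
    apply Valuation.map_add_eq_of_lt_left
    rw [h1]
    exact hC
  rw [← h3]
  apply Valuation.map_add_eq_of_lt_left
  rw [h3]
  exact hD

/-- **M5.** -/
theorem sign_node (h : IsWC V X Z) (hN : IsNodal v V α) (hT : IsTors v X T)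
    (hσ : IsInert v X Z T σG σK) {P : G} (hP : P ∈ T) (hP0 : P ≠ 0) (hXP : v (X P) < 1) :
    σG P ≠ -P := by
  intro hneg
  have hNg := node_gt h hN hT hP hP0 hXP
  have hpos : 0 < v (X P) ^ 2 := lt_of_le_of_lt zero_le hNg
  have hx0 : 0 < v (X P) := by
    rcases eq_or_ne (v (X P)) 0 with h0 | h0
    · rw [h0, zero_pow two_ne_zero] at hpos
      exact absurd hpos (lt_irrefl _)
    · exact zero_lt_iff.mpr h0
  have hx0' : X P ≠ 0 := (Valuation.ne_zero_iff v).mp hx0.ne'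
  have hX : σK (X P) = X P := by rw [← hσ.X_eq, hneg, h.X_neg]
  have hZ : σK (Z P) = -Z P - V.a₁ * X P - V.a₃ := by rw [← hσ.Z_eq, hneg, h.Z_neg P hP0]
  have ht : v (Z P / X P) ≤ 1 := by
    rw [map_div₀]
    exact (div_le_one₀ hx0).mpr (Z_node hN (h.eqn P hP0) hNg hXP)
  have h1 := hσ.congr _ ht
  rw [map_div₀, hX, hZ] at h1
  have h2 : (-Z P - V.a₁ * X P - V.a₃) / X P - Z P / X P =
      -((2 * Z P + V.a₁ * X P + V.a₃) / X P) := by
    field_simp
    ring
  rw [h2, Valuation.map_neg, map_div₀] at h1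
  have h3 := congrArg v (h.psi_sq hP0)
  rw [map_pow, v_psi_node hN hNg hXP] at h3
  have h4 : v (2 * Z P + V.a₁ * X P + V.a₃) = v (X P) :=
    (pow_left_inj₀ zero_le zero_le two_ne_zero).mp h3
  rw [h4, div_self hx0.ne'] at h1
  exact lt_irrefl _ h1

end Fermat.Agent.S58.LocM
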