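import Fermat.Agent.S58.LocM.Abs.Fix
import Fermat.Agent.S58.LocM.Abs.Sign

/-!
# S58 / LOCM / M6 : the abstract unipotence theorem
-/

set_option autoImplicit false
set_option linter.unusedSectionVars false
set_option linter.unusedVariables false

namespace Fermat.Agent.S58.LocM

open Fermat.Agent.S05

variable {G : Type*} [AddCommGroup G] {K : Type*} [Field K]
  {Γ₀ : Type*} [LinearOrderedCommGroupWithZero Γ₀]
  {v : Valuation K Γ₀} {V : WeierstrassCurve K} {X Z : G → K} {α : Γ₀} {T : AddSubgroup G}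
  {σG : G →+ G} {σK : K →+* K}

/-- valuation of the numerator of the sum formula for two points at the same distance of the
node. -/
lemma node_num_sum (hN : IsNodal v V α) {x y : K} (hx : α < v x ^ 2) (hx1 : v x < 1)
    (hxy : v y = v x) :
    v (2 * (x + y) * (x * y) + V.b₂ * (x * y) + V.b₄ * (x + y) + V.b₆) = v x ^ 2 := by
  have hx2 : 0 < v x ^ 2 := lt_of_le_of_lt zero_le hx
  have hs : v (x + y) ≤ v x := Valuation.map_add_le v le_rfl hxy.le
  have hs1 : v (x + y) < 1 := lt_of_le_of_lt hs hx1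
  have hxy2 : v (x * y) = v x ^ 2 := by rw [map_mul, hxy, sq]
  have h1 : v (V.b₂ * (x * y)) = v x ^ 2 := by rw [map_mul, hN.b₂, one_mul, hxy2]
  have h2 : v (2 * (x + y) * (x * y)) < v x ^ 2 := by
    rw [map_mul, hxy2]
    have h3 : v (2 * (x + y)) < 1 := lt1_mul_right v (le1_ofNat v 2) hs1
    calc v (2 * (x + y)) * v x ^ 2 < 1 * v x ^ 2 := by gcongr
      _ = v x ^ 2 := one_mul _
  have h3 : v (V.b₄ * (x + y)) < v x ^ 2 := by
    rw [map_mul]
    calc v V.b₄ * v (x + y) ≤ α * 1 := mul_le_mul' hN.b₄ hs1.le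
      _ = α := mul_one _
      _ < v x ^ 2 := hx
  have h4 : v V.b₆ < v x ^ 2 := lt_of_le_of_lt hN.b₆ hx
  have e : 2 * (x + y) * (x * y) + V.b₂ * (x * y) + V.b₄ * (x + y) + V.b₆
      = V.b₂ * (x * y) + (2 * (x + y) * (x * y) + V.b₄ * (x + y) + V.b₆) := by ring
  rw [e, Valuation.map_add_eq_of_lt_left v, h1]
  rw [h1]
  exact Valuation.map_add_lt v (Valuation.map_add_lt v h2 h3) h4

/-- **M6.** for torsion points of node type `σ P - P` is zero or of unit type. -/
theorem sub_unit_of_node (h : IsWC V X Z) (hN : IsNodal v V α) (hT : IsTors v X T)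
    (hσ : IsInert v X Z T σG σK) {P : G} (hP : P ∈ T) (hP0 : P ≠ 0) (hXP : v (X P) < 1) :
    σG P = P ∨ v (X (σG P - P)) = 1 := by
  have hQ := hσ.ne_zero P hP0
  have hQT := hσ.mem P hP
  have hNg := node_gt h hN hT hP hP0 hXP
  have hx0 : 0 < v (X P) ^ 2 := lt_of_le_of_lt zero_le hNg
  have hvQ : v (X (σG P)) = v (X P) := by rw [hσ.X_eq]; exact hσ.val _
  by_cases hne : X P = X (σG P)
  · left
    rcases (h.X_eq_iff hQ hP0).1 hne.symm with h' | h'
    · exact h'
    · exact absurd h' (sign_node h hN hT hσ hP hP0 hXP)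
  right
  have hs0 : P + σG P ≠ 0 := by
    intro h0; apply hne
    have e1 : P = -σG P := eq_neg_of_add_eq_zero_left h0
    exact (congrArg X e1).trans (h.X_neg _)
  have hd0 : P - σG P ≠ 0 := by
    intro h0; apply hne; exact congrArg X (sub_eq_zero.mp h0)
  have hsT : P + σG P ∈ T := T.add_mem hP hQT
  have hdT : P - σG P ∈ T := T.sub_mem hP hQT
  have hadd := h.add_add_sub hP0 hQ hne
  have hr1 := hT.int _ hsT hs0
  have hr2 := hT.int _ hdT hd0
  have h3 := node_num_sum hN hNg hXP hvQ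
  rw [← hadd, map_mul, map_pow] at h3
  have hd : v (X P - X (σG P)) ≤ v (X P) := Valuation.map_sub_le v le_rfl hvQ.le
  have hsum : v (X (P + σG P) + X (P - σG P)) = 1 := by
    apply le_antisymm (le1_add v hr1 hr2)
    by_contra hlt
    push Not at hlt
    have : v (X (P + σG P) + X (P - σG P)) * v (X P - X (σG P)) ^ 2 < v (X P) ^ 2 := by
      calc v (X (P + σG P) + X (P - σG P)) * v (X P - X (σG P)) ^ 2
          ≤ v (X (P + σG P) + X (P - σG P)) * v (X P) ^ 2 := by gcongr
        _ < 1 * v (X P) ^ 2 := by gcongr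
        _ = v (X P) ^ 2 := one_mul _
    exact this.ne h3
  have e : σG P - P = -(P - σG P) := by abel
  rw [e, h.X_neg]
  by_contra hcon
  have hr2' : v (X (P - σG P)) < 1 := lt_of_le_of_ne hr2 hcon
  have hr1' : v (X (P + σG P)) = 1 := by
    apply le_antisymm hr1
    by_contra hlt
    push Not at hlt
    exact (lt1_add v hlt hr2').ne hsum
  have hfix := fix_unit h hN hT hσ hsT hs0 hr1'
  rw [map_add] at hfix
  have hσσ : σG (σG P) = P := by
    have : σG P + σG (σG P) = σG P + P := by rw [hfix]; abel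
    exact add_left_cancel this
  have hneg : σG (P - σG P) = -(P - σG P) := by
    rw [map_sub, hσσ]; abel
  exact sign_node h hN hT hσ hdT hd0 hr2' hneg

/-- inertia acts unipotently. -/
theorem unipotent_abs (h : IsWC V X Z) (hN : IsNodal v V α) (hT : IsTors v X T)
    (hσ : IsInert v X Z T σG σK) {P : G} (hP : P ∈ T) : σG (σG P - P) = σG P - P := by
  by_cases hP0 : P = 0
  · subst hP0; simp
  have hx := hT.int P hP hP0
  rcases lt_or_eq_of_le hx with hlt | heq
  · rcases sub_unit_of_node h hN hT hσ hP hP0 hlt with h1 | h1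
    · rw [h1]; simp
    · by_cases hD0 : σG P - P = 0
      · rw [hD0]; simp
      · exact fix_unit h hN hT hσ (T.sub_mem (hσ.mem P hP) hP) hD0 h1
  · rw [fix_unit h hN hT hσ hP hP0 heq]; simp

end Fermat.Agent.S58.LocM
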