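import Fermat.Agent.S58.LocM.Abs.Unit

/-!
# S58 / LOCM / M3 : points of unit type are fixed by inertia
-/

set_option autoImplicit false
set_option linter.unusedSectionVars false
set_option linter.unusedVariables false

namespace Fermat.Agent.S58.LocM

open Fermat.Agent.S05

variable {G : Type*} [AddCommGroup G] {K : Type*} [Field K]
  {Γ₀ : Type*} [LinearOrderedCommGroupWithZero Γ₀]
  {v : Valuation K Γ₀} {V : WeierstrassCurve K} {X Z : G → K} {α : Γ₀} {T : AddSubgroup G}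
  {σG : G →+ G} {σK : K →+* K}

/-- integrality of the second coordinate. -/
lemma Z_int (h : IsWC V X Z) (hN : IsNodal v V α) {P : G} (hP0 : P ≠ 0) (hX : v (X P) ≤ 1) :
    v (Z P) ≤ 1 := by
  by_contra hy
  push Not at hy
  have hα1 : α ≤ 1 := hN.lt_one.le
  have h1 : v (X P ^ 3 + V.a₂ * X P ^ 2 + V.a₄ * X P + V.a₆) ≤ 1 :=
    le1_add v (le1_add v (le1_add v (le1_pow v hX 3) (le1_mul v hN.a₂ (le1_pow v hX 2)))
      (le1_mul v (hN.a₄.trans hα1) hX)) (hN.a₆.trans hα1)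
  have h0 : v (V.a₁ * X P + V.a₃) ≤ 1 := le1_add v (le1_mul v hN.a₁ hX) (hN.a₃.trans hα1)
  have h2 : v (Z P + (V.a₁ * X P + V.a₃)) = v (Z P) :=
    Valuation.map_add_eq_of_lt_left v (lt_of_le_of_lt h0 hy)
  have h3 : Z P ^ 2 + V.a₁ * X P * Z P + V.a₃ * Z P = Z P * (Z P + (V.a₁ * X P + V.a₃)) := by ring
  rw [← h.eqn P hP0, h3, map_mul, h2] at h1
  have h4 : 1 < v (Z P) * v (Z P) := one_lt_mul'' hy hy
  exact absurd h1 (not_le.mpr h4)

/-- two congruent torsion points of unit type have the same `X`. -/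
lemma X_eq_of_congr_unit (h : IsWC V X Z) (hN : IsNodal v V α) (hT : IsTors v X T) {P Q : G}
    (hP : P ∈ T) (hQ : Q ∈ T) (hP0 : P ≠ 0) (hQ0 : Q ≠ 0) (hXP : v (X P) = 1)
    (hcong : v (X Q - X P) < 1) : X P = X Q := by
  by_contra hne
  have hs0 : P + Q ≠ 0 := by
    intro h0; apply hne
    rw [eq_neg_of_add_eq_zero_left h0, h.X_neg]
  have hd0 : P - Q ≠ 0 := by
    intro h0; apply hne; rw [sub_eq_zero.mp h0]
  have hmul := h.add_mul_sub hP0 hQ0 hne
  have hXQ : v (X Q) = 1 := by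
    have : X Q = (X Q - X P) + X P := by ring
    rw [this, ← hXP]
    apply Valuation.map_add_eq_of_lt_right
    rw [hXP]; exact hcong
  have h1 := unit_num hN hXP hXQ
  have h2 := congrArg v hmul
  rw [h1] at h2
  have hcong' : v (X P - X Q) < 1 := by rw [Valuation.map_sub_swap]; exact hcong
  have h3 : v (X (P + Q) * X (P - Q) * (X P - X Q) ^ 2) < 1 := by
    apply lt1_mul_right v (le1_mul v (hT.int _ (T.add_mem hP hQ) hs0)
      (hT.int _ (T.sub_mem hP hQ) hd0))
    rw [sq]; exact lt1_mul_left v hcong' hcong'.le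
  exact h3.ne h2

/-- **M3.** -/
theorem fix_unit (h : IsWC V X Z) (hN : IsNodal v V α) (hT : IsTors v X T)
    (hσ : IsInert v X Z T σG σK) {P : G} (hP : P ∈ T) (hP0 : P ≠ 0) (hXP : v (X P) = 1) :
    σG P = P := by
  have hQ := hσ.ne_zero P hP0
  have hQT := hσ.mem P hP
  have hcong : v (X (σG P) - X P) < 1 := by rw [hσ.X_eq]; exact hσ.congr _ hXP.le
  have hXeq := X_eq_of_congr_unit h hN hT hP hQT hP0 hQ hXP hcong
  rcases (h.X_eq_iff hQ hP0).1 hXeq.symm with h' | h'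
  · exact h'
  · exfalso
    have hZ : σK (Z P) = -Z P - V.a₁ * X P - V.a₃ := by rw [← hσ.Z_eq, h', h.Z_neg P hP0]
    have h1 := hσ.congr _ (Z_int h hN hP0 hXP.le)
    rw [hZ] at h1
    have h2 : -Z P - V.a₁ * X P - V.a₃ - Z P = -(2 * Z P + V.a₁ * X P + V.a₃) := by ring
    rw [h2, Valuation.map_neg] at h1
    have hPP := hT.add_self_ne_zero hP hP0
    have hd := h.dbl hP0 hPP
    have h3 := unit_num_dbl hN hXP
    have h4 := congrArg v hd
    rw [h3] at h4
    have h5 : v (X (P + P) * (2 * Z P + V.a₁ * X P + V.a₃) ^ 2) < 1 := by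
      apply lt1_mul_right v (hT.int _ (T.add_mem hP hP) hPP)
      rw [sq]; exact lt1_mul_left v h1 h1.le
    exact h5.ne h4

end Fermat.Agent.S58.LocM
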