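import Fermat.Agent.S58.LocM.Abs.Unit

/-!
# S58 / LOCM / M4 : torsion points of node type are not too close to the node
-/

set_option autoImplicit false
set_option linter.unusedSectionVars false
set_option linter.unusedVariables false

namespace Fermat.Agent.S58.LocM

open Fermat.Agent.S05

variable {G : Type*} [AddCommGroup G] {K : Type*} [Field K]
  {Γ₀ : Type*} [LinearOrderedCommGroupWithZero Γ₀]
  {v : Valuation K Γ₀} {V : WeierstrassCurve K} {X Z : G → K} {α : Γ₀} {T : AddSubgroup G}

lemma Node_lt_one (hN : IsNodal v V α) {x : K} (hx : v x ^ 2 ≤ α) : v x < 1 := by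
  by_contra hcon
  push Not at hcon
  have h1 : (1 : Γ₀) ≤ v x ^ 2 := one_le_pow₀ hcon
  exact absurd (h1.trans hx) (not_le.2 hN.lt_one)

/-- very close to the node the numerator of the duplication formula has valuation `α`. -/
lemma node_num_dbl (hN : IsNodal v V α) {x : K} (hx : v x ^ 2 ≤ α) :
    v (x ^ 4 - V.b₄ * x ^ 2 - 2 * V.b₆ * x - V.b₈) = α := by
  have hx1 := Node_lt_one hN hx
  have hα := hN.pos
  have hαα : α * α < α := by
    calc α * α < 1 * α := by
          have := hN.lt_one
          gcongr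
      _ = α := one_mul _
  have h2 : v (2 : K) ≤ 1 := le1_ofNat v 2
  rw [← hN.b₈]
  apply Valuation.map_sub_eq_of_lt_right
  rw [hN.b₈]
  apply Valuation.map_sub_lt
  · apply Valuation.map_sub_lt
    · rw [map_pow]
      calc v x ^ 4 = v x ^ 2 * v x ^ 2 := by rw [← pow_add]
        _ ≤ α * α := by gcongr
        _ < α := hαα
    · rw [map_mul, map_pow]
      calc v V.b₄ * v x ^ 2 ≤ α * α := by
            have := hN.b₄
            gcongr
        _ < α := hαα
  · rw [map_mul, map_mul]
    calc v 2 * v V.b₆ * v x ≤ 1 * α * v x := by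
          have := hN.b₆
          gcongr
      _ = α * v x := by rw [one_mul]
      _ < α * 1 := by gcongr
      _ = α := mul_one _

/-- very close to the node the denominator of the duplication formula has valuation `≤ α`. -/
lemma node_den_dbl (hN : IsNodal v V α) {x : K} (hx : v x ^ 2 ≤ α) :
    v (4 * x ^ 3 + V.b₂ * x ^ 2 + 2 * V.b₄ * x + V.b₆) ≤ α := by
  have hx1 := (Node_lt_one hN hx).le
  have h2 : v (2 : K) ≤ 1 := le1_ofNat v 2
  have h4 : v (4 : K) ≤ 1 := le1_ofNat v 4
  apply Valuation.map_add_le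
  · apply Valuation.map_add_le
    · apply Valuation.map_add_le
      · rw [map_mul, map_pow]
        calc v 4 * v x ^ 3 = v 4 * (v x ^ 2 * v x) := by rw [← pow_succ]
          _ ≤ 1 * (α * 1) := by gcongr
          _ = α := by rw [one_mul, mul_one]
      · rw [map_mul, map_pow, hN.b₂, one_mul]
        exact hx
    · rw [map_mul, map_mul]
      calc v 2 * v V.b₄ * v x ≤ 1 * α * 1 := by
            have := hN.b₄
            gcongr
        _ = α := by rw [one_mul, mul_one]
  · exact hN.b₆

/-- **M4.** -/
theorem node_gt (h : IsWC V X Z) (hN : IsNodal v V α) (hT : IsTors v X T) {P : G}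
    (hP : P ∈ T) (hP0 : P ≠ 0) (hXP : v (X P) < 1) : α < v (X P) ^ 2 := by
  by_contra hcon
  push Not at hcon
  have hα := hN.pos
  have hPP := hT.add_self_ne_zero hP hP0
  have hd := h.dbl hP0 hPP
  rw [h.psi_sq hP0] at hd
  have h8 := congrArg v hd
  rw [map_mul, node_num_dbl hN hcon] at h8
  have h6 := node_den_dbl hN hcon
  have h9 : 1 ≤ v (X (P + P)) := by
    by_contra hlt
    push Not at hlt
    have : v (X (P + P)) * v (4 * X P ^ 3 + V.b₂ * X P ^ 2 + 2 * V.b₄ * X P + V.b₆) < α := by
      calc v (X (P + P)) * v (4 * X P ^ 3 + V.b₂ * X P ^ 2 + 2 * V.b₄ * X P + V.b₆)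
          ≤ v (X (P + P)) * α := by gcongr
        _ < 1 * α := by gcongr
        _ = α := one_mul _
    exact this.ne h8
  have hmem : P + P ∈ T := T.add_mem hP hP
  have h10 : v (X (P + P)) = 1 := le_antisymm (hT.int _ hmem hPP) h9
  obtain ⟨k, hk⟩ := hT.half P hP
  have h11 := unit_nsmul h hN hT hmem hPP h10 k
  rw [hk] at h11
  rcases h11 with h11 | h11
  · exact hP0 h11
  · exact hXP.ne h11

end Fermat.Agent.S58.LocM
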