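import Fermat.Agent.S58.LocM.Defs

/-!
# S58 / LOCM / M2 : the points of unit type form a subgroup
-/

set_option autoImplicit false
set_option linter.unusedSectionVars false
set_option linter.unusedVariables false

namespace Fermat.Agent.S58.LocM

open Fermat.Agent.S05

variable {G : Type*} [AddCommGroup G] {K : Type*} [Field K]
  {Γ₀ : Type*} [LinearOrderedCommGroupWithZero Γ₀]
  {v : Valuation K Γ₀} {V : WeierstrassCurve K} {X Z : G → K} {α : Γ₀} {T : AddSubgroup G}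

lemma Unit_mul_le {a b : K} (ha : v a ≤ 1) (hb : v b ≤ α) : v (a * b) ≤ α := by
  rw [map_mul]
  exact (mul_le_mul' ha hb).trans (one_mul α).le

lemma Unit_mul_le' {a b : K} (ha : v a ≤ α) (hb : v b ≤ 1) : v (a * b) ≤ α := by
  rw [mul_comm]
  exact Unit_mul_le hb ha

lemma Unit_eq_one_of_mul {a b : Γ₀} (ha : a ≤ 1) (hb : b ≤ 1) (h : a * b = 1) : a = 1 := by
  refine le_antisymm ha ?_
  calc (1 : Γ₀) = a * b := h.symm
    _ ≤ a * 1 := mul_le_mul' le_rfl hb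
    _ = a := mul_one a

lemma IsNodal.b₄ (hN : IsNodal v V α) : v V.b₄ ≤ α := by
  unfold WeierstrassCurve.b₄
  exact v.map_add_le (Unit_mul_le (le1_ofNat v 2) hN.a₄) (Unit_mul_le hN.a₁ hN.a₃)

lemma IsNodal.b₆ (hN : IsNodal v V α) : v V.b₆ ≤ α := by
  unfold WeierstrassCurve.b₆
  refine v.map_add_le ?_ (Unit_mul_le (le1_ofNat v 4) hN.a₆)
  rw [pow_two]
  exact Unit_mul_le (hN.a₃.trans hN.lt_one.le) hN.a₃

/-- `ψ₂² = 4X³ + b₂X² + 2b₄X + b₆`. -/
lemma IsWC.psi_sq (h : IsWC V X Z) {P : G} (hP : P ≠ 0) :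
    (2 * Z P + V.a₁ * X P + V.a₃) ^ 2 =
      4 * X P ^ 3 + V.b₂ * X P ^ 2 + 2 * V.b₄ * X P + V.b₆ := by
  unfold WeierstrassCurve.b₂ WeierstrassCurve.b₄ WeierstrassCurve.b₆
  linear_combination 4 * h.eqn P hP

lemma IsTors.add_self_ne_zero (hT : IsTors v X T) {P : G} (hP : P ∈ T) (hP0 : P ≠ 0) :
    P + P ≠ 0 := by
  intro h
  obtain ⟨k, hk⟩ := hT.half P hP
  rw [h, smul_zero] at hk
  exact hP0 hk.symm

/-- the numerator of the product formula is a unit at points of unit type. -/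
lemma unit_num (hN : IsNodal v V α) {x y : K} (hx : v x = 1) (hy : v y = 1) :
    v (x ^ 2 * y ^ 2 - V.b₄ * (x * y) - V.b₆ * (x + y) - V.b₈) = 1 := by
  have h1 : v (x ^ 2 * y ^ 2) = 1 := by simp [hx, hy]
  have h2 : v (V.b₄ * (x * y) + V.b₆ * (x + y) + V.b₈) ≤ α :=
    v.map_add_le (v.map_add_le (Unit_mul_le' hN.b₄ (le1_mul v hx.le hy.le))
      (Unit_mul_le' hN.b₆ (le1_add v hx.le hy.le))) hN.b₈.le
  have e : x ^ 2 * y ^ 2 - V.b₄ * (x * y) - V.b₆ * (x + y) - V.b₈ =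
      x ^ 2 * y ^ 2 - (V.b₄ * (x * y) + V.b₆ * (x + y) + V.b₈) := by ring
  rw [e, Valuation.map_sub_eq_of_lt_left _ (by rw [h1]; exact h2.trans_lt hN.lt_one), h1]

/-- the numerator of the duplication formula is a unit at points of unit type. -/
lemma unit_num_dbl (hN : IsNodal v V α) {x : K} (hx : v x = 1) :
    v (x ^ 4 - V.b₄ * x ^ 2 - 2 * V.b₆ * x - V.b₈) = 1 := by
  have h := unit_num hN hx hx
  have e : x ^ 4 - V.b₄ * x ^ 2 - 2 * V.b₆ * x - V.b₈ =
      x ^ 2 * x ^ 2 - V.b₄ * (x * x) - V.b₆ * (x + x) - V.b₈ := by ring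
  rw [e, h]

/-- **M2.** -/
theorem unit_add (h : IsWC V X Z) (hN : IsNodal v V α) (hT : IsTors v X T) {P Q : G}
    (hP : P ∈ T) (hQ : Q ∈ T) (hP0 : P ≠ 0) (hQ0 : Q ≠ 0) (hXP : v (X P) = 1)
    (hXQ : v (X Q) = 1) : P + Q = 0 ∨ v (X (P + Q)) = 1 := by
  by_cases hX : X P = X Q
  · rcases (h.X_eq_iff hP0 hQ0).1 hX with rfl | rfl
    · right
      have hPP := hT.add_self_ne_zero hP hP0
      have hd := congrArg v (h.dbl hP0 hPP)
      rw [map_mul, unit_num_dbl hN hXP] at hd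
      refine Unit_eq_one_of_mul (hT.int _ (T.add_mem hP hP) hPP) ?_ hd
      rw [h.psi_sq hP0]
      have hb4 : v V.b₄ ≤ 1 := hN.b₄.trans hN.lt_one.le
      have hb6 : v V.b₆ ≤ 1 := hN.b₆.trans hN.lt_one.le
      exact le1_add v (le1_add v (le1_add v (le1_mul v (le1_ofNat v 4) (le1_pow v hXP.le 3))
        (le1_mul v hN.b₂.le (le1_pow v hXP.le 2)))
        (le1_mul v (le1_mul v (le1_ofNat v 2) hb4) hXP.le)) hb6
    · left
      exact neg_add_cancel Q
  · right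
    have h1 : P + Q ≠ 0 := by
      intro h0
      apply hX
      rw [eq_neg_of_add_eq_zero_left h0, h.X_neg]
    have h2 : P - Q ≠ 0 := by
      intro h0
      apply hX
      rw [sub_eq_zero.1 h0]
    have hd := congrArg v (h.add_mul_sub hP0 hQ0 hX)
    rw [mul_assoc, map_mul, unit_num hN hXP hXQ] at hd
    refine Unit_eq_one_of_mul (hT.int _ (T.add_mem hP hQ) h1) ?_ hd
    exact le1_mul v (hT.int _ (T.sub_mem hP hQ) h2) (le1_pow v (le1_sub v hXP.le hXQ.le) 2)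

theorem unit_nsmul (h : IsWC V X Z) (hN : IsNodal v V α) (hT : IsTors v X T) {P : G}
    (hP : P ∈ T) (hP0 : P ≠ 0) (hXP : v (X P) = 1) (k : ℕ) :
    k • P = 0 ∨ v (X (k • P)) = 1 := by
  induction k with
  | zero => left; exact zero_smul _ _
  | succ k ih =>
    rw [succ_nsmul]
    by_cases hk : k • P = 0
    · right
      rw [hk, zero_add]
      exact hXP
    · exact unit_add h hN hT (T.nsmul_mem hP k) hP hk hP0 (ih.resolve_left hk) hXP

end Fermat.Agent.S58.LocM
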